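import Fermat.Agent.QuaternionCurve.Points
import Fermat.Agent.QuaternionApprox.Curves

/-!
# The genus of the curve of discriminant `6`

The curve has genus `0` and area `2 π / 3`, as the four elliptic orbits contribute `7 / 3` and the
area is at most `12`.  So the dimension of the forms of weight `2 m` and the genus of the curves of
level `p` are known exactly.
-/

set_option autoImplicit false
set_option linter.unusedSectionVars false
set_option linter.style.haveILetI false

noncomputable section

open Set Filter Topology Matrix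
open UpperHalfPlane hiding I
open scoped MatrixGroups Real
open FA.Horocycle FA.QuaternionHecke FA.CocompactForms FA.CocompactDegree FA.CocompactGaussBonnet

namespace FA.QuaternionCurve

/-- The four elliptic orbits. -/
def ellipticOrb (i : Fin 4) : Orb orderUnits := Quotient.mk'' (ellipticPts i)

theorem ellipticOrb_injective : Function.Injective ellipticOrb := fun _ _ h =>
  orbit_pts_injective (MulAction.orbitRel_apply.1 (Quotient.exact h.symm))

theorem ramIndex_out (i : Fin 4) :
    ramIndex orderUnits (ellipticOrb i).out = ![2, 2, 3, 3] i := by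
  obtain ⟨γ, hγ⟩ := MulAction.orbitRel_apply.1 (Quotient.exact (Quotient.out_eq (ellipticOrb i)))
  rw [← hγ, ramIndex_smul, ramIndex_pts]

theorem elliptic_toFinset :
    (finite_elliptic orderUnits).toFinset =
      Finset.univ.map ⟨ellipticOrb, ellipticOrb_injective⟩ := by
  ext x
  simp only [Finite.mem_toFinset, Set.mem_ofPred_eq, Finset.mem_map, Finset.mem_univ, true_and,
    Function.Embedding.coeFn_mk]
  refine ⟨fun h => ?_, ?_⟩
  · obtain ⟨i, hi⟩ := exists_pt ((ramIndex_ne_one_iff orderUnits x.out).1 h)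
    exact ⟨i, (Quotient.sound (MulAction.orbitRel_apply.2 hi)).symm.trans (Quotient.out_eq x)⟩
  · rintro ⟨i, rfl⟩
    rw [ramIndex_out]
    fin_cases i <;> decide

theorem ellipticDefect_eq : ellipticDefect orderUnits = 7 / 3 := by
  rw [ellipticDefect, elliptic_toFinset, Finset.sum_map]
  simp only [Function.Embedding.coeFn_mk, ramIndex_out, Fin.sum_univ_four]
  simp
  norm_num

theorem floorSum_eq (m : ℕ) : floorSum orderUnits m = 2 * (m / 2) + 2 * (2 * m / 3) := by
  rw [floorSum, elliptic_toFinset, Finset.sum_map]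
  simp only [Function.Embedding.coeFn_mk, ramIndex_out, Fin.sum_univ_four]
  simp [mul_comm m 2]
  ring

theorem area_eq_dimension : area orderUnits = 2 * π / 3 ∧ ∀ᶠ m : ℕ in atTop,
    (Module.finrank ℂ (forms orderUnits ((2 * m : ℕ) : ℤ)) : ℤ) =
      1 - 2 * (m : ℤ) + 2 * ((m / 2 : ℕ) : ℤ) + 2 * ((2 * m / 3 : ℕ) : ℤ) := by
  obtain ⟨g, hg, hdim⟩ := exists_genus orderUnits
  have h12 := area_le
  rw [ellipticDefect_eq] at hg
  have hg0 : g = 0 := by
    by_contra h
    have h1 : (1 : ℝ) ≤ g := by exact_mod_cast Nat.one_le_iff_ne_zero.2 h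
    nlinarith [Real.pi_gt_three]
  subst hg0
  refine ⟨by rw [hg]; push_cast; ring, hdim.mono fun m hm => ?_⟩
  rw [hm, floorSum_eq]
  push_cast
  ring

theorem neg_one_notMem_level (p : ℕ) (hp5 : 5 ≤ p) :
    (-1 : SL(2, ℝ)) ∉ QuaternionApprox.level p := fun h => by
  have hd := QuaternionApprox.congr_trace_dvd h.2 (T := -2) (T' := 2)
    (by simp) (by simp)
  have := Int.le_of_dvd (by norm_num : (0 : ℤ) < 4) (by simpa using hd.neg_right)
  omega

theorem level_genus_exact (p : ℕ) [Fact p.Prime] (hp5 : 5 ≤ p) :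
    ∃ g : ℕ, area (QuaternionApprox.level p) = 4 * π * ((g : ℝ) - 1) ∧
      12 * (g - 1) = p * (p ^ 2 - 1) := by
  haveI := QuaternionApprox.compactSpace_level p hp5
  obtain ⟨g, hg2, hg, -⟩ := QuaternionApprox.level_genus p hp5
  refine ⟨g, hg, ?_⟩
  have h := CocompactHurwitz.area_mul (QuaternionApprox.level_le p)
  rw [trivCard_orderUnits, CocompactHurwitz.trivCard_eq.2 (neg_one_notMem_level p hp5),
    QuaternionApprox.relIndex_level p hp5, hg, area_eq_dimension.1] at h
  have e : (((12 * (g - 1) : ℕ) : ℝ)) * π = ((p * (p ^ 2 - 1) : ℕ) : ℝ) * π := by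
    push_cast [Nat.cast_sub (by omega : 1 ≤ g)] at h ⊢
    linarith
  exact_mod_cast mul_right_cancel₀ Real.pi_ne_zero e

theorem no_fixed_of_det {x : Matrix (Fin 2) (Fin 2) ℝ} (hx : x ∈ order) (hdet : x.det = -1)
    (z : ℍ) :
    (x 0 0 : ℂ) * starRingEnd ℂ z + (x 0 1 : ℂ) ≠
      (z : ℂ) * ((x 1 0 : ℂ) * starRingEnd ℂ z + (x 1 1 : ℂ)) := fun h => by
  have him := congrArg Complex.im h
  simp at him
  have htr : x 0 0 + x 1 1 = 0 :=
    mul_right_cancel₀ z.im_ne_zero (by linear_combination -him)
  rw [det_fin_two] at hdet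
  have hsq : x * x = 1 := by
    ext i j
    fin_cases i <;> fin_cases j <;>
      simp [Matrix.mul_apply, Fin.sum_univ_two]
    · linear_combination x 0 0 * htr - hdet
    · linear_combination x 0 1 * htr
    · linear_combination x 1 0 * htr
    · linear_combination x 1 1 * htr - hdet
  have hprod : (x - 1).det * (x + 1).det = 0 := by
    rw [← det_mul, show (x - 1) * (x + 1) = 0 by
      rw [mul_add, sub_mul, sub_mul, hsq, one_mul, mul_one, one_mul]; abel, det_zero]
  rcases mul_eq_zero.1 hprod with h0 | h0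
  · have e := sub_eq_zero.1 (eq_zero_of_det (sub_mem hx (one_mem _)) h0)
    simp [e] at hdet
    norm_num at hdet
  · have e := eq_neg_of_add_eq_zero_left (eq_zero_of_det (add_mem hx (one_mem _)) h0)
    simp [e] at hdet
    norm_num at hdet

end FA.QuaternionCurve

end
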