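import Fermat.Agent.QuaternionHecke.Lattice
import Fermat.Agent.CocompactHurwitz.Overgroup

/-!
# The octagon of the curve of discriminant `6`

With `h₀ = cosh d(i, z)` and `h₁, h₂` the other coordinates on the hyperboloid, a unit
`A + B i + C j + D (j i)` changes `h₀` to `n h₀ + 2 √3 (A C - B D) h₁ + 2 √3 (A D + B C) h₂`.  Eight
units with `n = 4` show that a point nearest to `i` in its orbit has `h₀ ≤ 2`; hence the area is at
most that of a Euclidean box, `12`.
-/

set_option autoImplicit false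
set_option linter.unusedSectionVars false
set_option linter.style.haveILetI false

noncomputable section

open MeasureTheory Set Filter Topology
open UpperHalfPlane hiding I
open scoped MatrixGroups Real ENNReal
open FA.Horocycle FA.QuaternionHecke FA.CocompactForms FA.CocompactDegree

namespace FA.QuaternionCurve

/-- The hyperbolic cosine of the distance from `i`. -/
def hypT (z : ℍ) : ℝ := (z.re ^ 2 + z.im ^ 2 + 1) / (2 * z.im)

/-- The first space coordinate. -/
def hypX (z : ℍ) : ℝ := (z.re ^ 2 + z.im ^ 2 - 1) / (2 * z.im)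

/-- The second space coordinate. -/
def hypY (z : ℍ) : ℝ := z.re / z.im

theorem hyp_eq (z : ℍ) : hypT z ^ 2 - hypX z ^ 2 - hypY z ^ 2 = 1 := by
  have := z.im_ne_zero
  simp only [hypT, hypX, hypY]
  field_simp
  ring

theorem hypT_pos (z : ℍ) : 0 < hypT z := by
  have := z.im_pos
  unfold hypT
  positivity

theorem hypT_nonneg_one (z : ℍ) : 1 ≤ hypT z := by
  nlinarith [hyp_eq z, hypT_pos z, sq_nonneg (hypX z), sq_nonneg (hypY z)]

theorem eq_of_hyp {z w : ℍ} (h0 : hypT z = hypT w) (h1 : hypX z = hypX w)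
    (h2 : hypY z = hypY w) : z = w := by
  have e : ∀ u : ℍ, hypT u - hypX u = 1 / u.im := fun u => by
    have := u.im_ne_zero
    simp only [hypT, hypX]
    field_simp
    ring
  have hy : z.im = w.im := by
    have h : 1 / z.im = 1 / w.im := by rw [← e z, ← e w, h0, h1]
    simpa using h
  have hx : z.re = w.re := by
    simp only [hypY, hy] at h2
    exact (div_left_inj' w.im_ne_zero).1 h2
  exact UpperHalfPlane.ext (Complex.ext hx hy)

theorem hypT_realQuat {g : SL(2, ℝ)} {A B C D : ℝ}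
    (hg : (g : Matrix (Fin 2) (Fin 2) ℝ) = realQuat A B C D) (z : ℍ) :
    hypT (g • z) = (A ^ 2 + B ^ 2 + 3 * C ^ 2 + 3 * D ^ 2) * hypT z +
      2 * Real.sqrt 3 * (A * C - B * D) * hypX z + 2 * Real.sqrt 3 * (A * D + B * C) * hypY z := by
  have hy := z.im_pos
  have hne := jac_ne_zero g z.im_ne_zero
  have hn : 0 < Complex.normSq (jac g z) := Complex.normSq_pos.2 hne
  have him : (g • z).im = z.im / Complex.normSq (jac g z) := by
    rw [im_smul_sl, Complex.normSq_eq_norm_sq]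
  have hnum : (g • z).re ^ 2 + (g • z).im ^ 2 =
      Complex.normSq ((g 0 0 : ℂ) * z + (g 0 1 : ℂ)) / Complex.normSq (jac g z) := by
    rw [← Complex.normSq_div, ← UpperHalfPlane.coe_re, ← UpperHalfPlane.coe_im, coe_smul_eq_mob,
      mob, Complex.normSq_apply]
    ring
  have h : hypT (g • z) = (Complex.normSq ((g 0 0 : ℂ) * z + (g 0 1 : ℂ)) +
      Complex.normSq (jac g z)) / (2 * z.im) := by
    rw [hypT, hnum, him]
    field_simp
  rw [h]
  simp only [jac, hg, realQuat, hypT, hypX, hypY, Complex.normSq_apply]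
  simp
  field_simp
  ring_nf
  rw [Real.sq_sqrt (by norm_num : (0 : ℝ) ≤ 3)]
  ring

/-- The doubled coordinates. -/
def dblA (γ : SL(2, ℝ)) : ℤ :=
  2 * (Function.invFun hurMat (γ : Matrix (Fin 2) (Fin 2) ℝ)).1 +
    (Function.invFun hurMat (γ : Matrix (Fin 2) (Fin 2) ℝ)).2.2.2

/-- The doubled coordinates. -/
def dblB (γ : SL(2, ℝ)) : ℤ :=
  2 * (Function.invFun hurMat (γ : Matrix (Fin 2) (Fin 2) ℝ)).2.1 +
    (Function.invFun hurMat (γ : Matrix (Fin 2) (Fin 2) ℝ)).2.2.2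

/-- The doubled coordinates. -/
def dblC (γ : SL(2, ℝ)) : ℤ :=
  2 * (Function.invFun hurMat (γ : Matrix (Fin 2) (Fin 2) ℝ)).2.2.1 +
    (Function.invFun hurMat (γ : Matrix (Fin 2) (Fin 2) ℝ)).2.2.2

/-- The doubled coordinates. -/
def dblD (γ : SL(2, ℝ)) : ℤ :=
  (Function.invFun hurMat (γ : Matrix (Fin 2) (Fin 2) ℝ)).2.2.2

theorem coe_eq_realQuat {γ : SL(2, ℝ)} (hγ : γ ∈ orderUnits) :
    (γ : Matrix (Fin 2) (Fin 2) ℝ) =
      realQuat (dblA γ / 2) (dblB γ / 2) (dblC γ / 2) (dblD γ / 2) := by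
  conv_lhs => rw [← Function.invFun_eq (f := hurMat) (mem_orderUnits.1 hγ)]
  simp only [hurMat, dblA, dblB, dblC, dblD]
  push_cast
  congr 1 <;> ring

theorem dbl_norm {γ : SL(2, ℝ)} (hγ : γ ∈ orderUnits) :
    dblA γ ^ 2 + dblB γ ^ 2 - 3 * dblC γ ^ 2 - 3 * dblD γ ^ 2 = 4 := by
  have e := γ.prop
  rw [coe_eq_realQuat hγ, det_realQuat] at e
  have e' : (dblA γ : ℝ) ^ 2 + dblB γ ^ 2 - 3 * dblC γ ^ 2 - 3 * dblD γ ^ 2 = 4 := by linarith
  exact_mod_cast e'

theorem dbl_parity (γ : SL(2, ℝ)) :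
    (2 : ℤ) ∣ dblA γ - dblD γ ∧ (2 : ℤ) ∣ dblB γ - dblD γ ∧ (2 : ℤ) ∣ dblC γ - dblD γ :=
  ⟨⟨_, by rw [dblA, dblD, add_sub_cancel_right]⟩, ⟨_, by rw [dblB, dblD, add_sub_cancel_right]⟩,
    ⟨_, by rw [dblC, dblD, add_sub_cancel_right]⟩⟩

theorem dbl_injective {γ δ : SL(2, ℝ)} (hγ : γ ∈ orderUnits) (hδ : δ ∈ orderUnits)
    (hA : dblA γ = dblA δ) (hB : dblB γ = dblB δ) (hC : dblC γ = dblC δ) (hD : dblD γ = dblD δ) :
    γ = δ :=
  Subtype.ext (by rw [coe_eq_realQuat hγ, coe_eq_realQuat hδ, hA, hB, hC, hD])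

theorem det_unit_mk (q : Quad) (h : hurNorm q = 1) : (hurMat q).det = 1 := by
  rw [det_hurMat, h, Int.cast_one]

/-- A unit with given coordinates. -/
def unitMk (q : Quad) (h : hurNorm q = 1) : orderUnits :=
  ⟨⟨hurMat q, det_unit_mk q h⟩, ⟨q, rfl⟩⟩

theorem coe_unitMk (q : Quad) (h : hurNorm q = 1) :
    ((unitMk q h : SL(2, ℝ)) : Matrix (Fin 2) (Fin 2) ℝ) = realQuat (q.1 + q.2.2.2 / 2)
      (q.2.1 + q.2.2.2 / 2) (q.2.2.1 + q.2.2.2 / 2) (q.2.2.2 / 2) := rfl

theorem hypT_unitMk (q : Quad) (h : hurNorm q = 1) (z : ℍ) :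
    hypT (unitMk q h • z) =
      ((q.1 + q.2.2.2 / 2 : ℝ) ^ 2 + (q.2.1 + q.2.2.2 / 2 : ℝ) ^ 2 +
        3 * (q.2.2.1 + q.2.2.2 / 2 : ℝ) ^ 2 + 3 * (q.2.2.2 / 2 : ℝ) ^ 2) * hypT z +
      2 * Real.sqrt 3 * ((q.1 + q.2.2.2 / 2 : ℝ) * (q.2.2.1 + q.2.2.2 / 2) -
        (q.2.1 + q.2.2.2 / 2) * (q.2.2.2 / 2)) * hypX z +
      2 * Real.sqrt 3 * ((q.1 + q.2.2.2 / 2 : ℝ) * (q.2.2.2 / 2) +
        (q.2.1 + q.2.2.2 / 2) * (q.2.2.1 + q.2.2.2 / 2)) * hypY z := by
  rw [Subgroup.smul_def]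
  exact hypT_realQuat (coe_unitMk q h) z

/-- The box containing a point of every orbit. -/
def box : Set ℍ := {z | hypT z ≤ 2}

theorem isCompact_hypT_le (R : ℝ) : IsCompact {z : ℍ | hypT z ≤ R} := by
  rcases le_or_gt R 0 with hR | hR
  · convert isCompact_empty (X := ℍ)
    exact eq_empty_of_forall_notMem fun z hz => (lt_of_lt_of_le (hypT_pos z) (hz.trans hR)).false
  have hK : IsCompact (((↑) : ℍ → ℂ) ⁻¹' (Icc (-R) R ×ℂ Icc (1 / (2 * R)) (2 * R))) :=
    UpperHalfPlane.isEmbedding_coe.isInducing.isCompact_preimage'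
      (isCompact_Icc.reProdIm isCompact_Icc) fun w hw => by
        rw [UpperHalfPlane.range_coe]
        exact lt_of_lt_of_le (by positivity) hw.2.1
  refine hK.of_isClosed_subset (isClosed_le ?_ continuous_const) fun z hz => ?_
  · unfold hypT
    exact ((UpperHalfPlane.continuous_re.pow 2).add (UpperHalfPlane.continuous_im.pow 2) |>.add
      continuous_const).div (continuous_const.mul UpperHalfPlane.continuous_im)
      fun u => mul_ne_zero two_ne_zero u.im_ne_zero
  · have hy := z.im_pos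
    have h : z.re ^ 2 + z.im ^ 2 + 1 ≤ R * (2 * z.im) :=
      (div_le_iff₀ (by positivity)).1 (show hypT z ≤ R from hz)
    refine ⟨?_, ?_⟩
    · show z.re ∈ Icc (-R) R
      exact abs_le.1 (abs_le_of_sq_le_sq (by nlinarith [sq_nonneg (z.im - R)]) hR.le)
    · show z.im ∈ Icc (1 / (2 * R)) (2 * R)
      refine ⟨?_, by nlinarith [sq_nonneg z.re]⟩
      rw [div_le_iff₀ (by positivity)]
      nlinarith [sq_nonneg z.re, sq_nonneg z.im]

theorem exists_nearest (z : ℍ) :
    ∃ w ∈ MulAction.orbit orderUnits z, ∀ γ : orderUnits, hypT w ≤ hypT (γ • w) := by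
  classical
  have hfin := finite_returns orderUnits (isCompact_singleton (x := z))
    (isCompact_hypT_le (hypT z))
  have h1 : (1 : orderUnits) ∈ hfin.toFinset :=
    hfin.mem_toFinset.2 ⟨z, rfl, by simp⟩
  obtain ⟨γ₀, hγ₀, hmin⟩ := hfin.toFinset.exists_min_image (fun γ => hypT (γ • z)) ⟨1, h1⟩
  refine ⟨γ₀ • z, MulAction.mem_orbit z γ₀, fun γ => ?_⟩
  rw [← mul_smul]
  by_cases h : hypT ((γ * γ₀) • z) ≤ hypT z
  · exact hmin _ (hfin.mem_toFinset.2 ⟨z, rfl, h⟩)
  · have := hmin 1 h1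
    rw [one_smul] at this
    linarith

/-- **The octagon inequalities.** -/
theorem octagon {w : ℍ} (hw : ∀ γ : orderUnits, hypT w ≤ hypT (γ • w)) :
    2 * |hypX w| + |hypY w| ≤ Real.sqrt 3 * hypT w ∧
      |hypX w| + 2 * |hypY w| ≤ Real.sqrt 3 * hypT w := by
  have hs : 0 < Real.sqrt 3 := by positivity
  have h3 := Real.mul_self_sqrt (show (0 : ℝ) ≤ 3 by norm_num)
  have key : ∀ (q : Quad) (h : hurNorm q = 1) (P Q : ℝ),
      (q.1 + q.2.2.2 / 2 : ℝ) ^ 2 + (q.2.1 + q.2.2.2 / 2 : ℝ) ^ 2 +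
        3 * (q.2.2.1 + q.2.2.2 / 2 : ℝ) ^ 2 + 3 * (q.2.2.2 / 2 : ℝ) ^ 2 = 4 →
      (q.1 + q.2.2.2 / 2 : ℝ) * (q.2.2.1 + q.2.2.2 / 2) -
        (q.2.1 + q.2.2.2 / 2) * (q.2.2.2 / 2) = P →
      (q.1 + q.2.2.2 / 2 : ℝ) * (q.2.2.2 / 2) +
        (q.2.1 + q.2.2.2 / 2) * (q.2.2.1 + q.2.2.2 / 2) = Q →
      0 ≤ Real.sqrt 3 * hypT w + 2 * (P * hypX w + Q * hypY w) := by
    intro q h P Q h4 hP hQ
    have e := hw (unitMk q h)
    rw [hypT_unitMk, h4, hP, hQ] at e
    refine nonneg_of_mul_nonneg_right ?_ hs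
    rw [mul_add, ← mul_assoc, h3]
    linarith
  have k1 := key (1, -1, 0, 1) (by norm_num [hurNorm]) 1 (1 / 2) (by norm_num) (by norm_num)
    (by norm_num)
  have k2 := key (0, -2, 0, 1) (by norm_num [hurNorm]) 1 (-1 / 2) (by norm_num) (by norm_num)
    (by norm_num)
  have k3 := key (-1, 1, 0, 1) (by norm_num [hurNorm]) (-1) (1 / 2) (by norm_num) (by norm_num)
    (by norm_num)
  have k4 := key (-2, 0, 0, 1) (by norm_num [hurNorm]) (-1) (-1 / 2) (by norm_num) (by norm_num)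
    (by norm_num)
  have k5 := key (1, 0, 0, 1) (by norm_num [hurNorm]) (1 / 2) 1 (by norm_num) (by norm_num)
    (by norm_num)
  have k6 := key (-1, -2, 0, 1) (by norm_num [hurNorm]) (1 / 2) (-1) (by norm_num) (by norm_num)
    (by norm_num)
  have k7 := key (0, 1, 0, 1) (by norm_num [hurNorm]) (-1 / 2) 1 (by norm_num) (by norm_num)
    (by norm_num)
  have k8 := key (-2, -1, 0, 1) (by norm_num [hurNorm]) (-1 / 2) (-1) (by norm_num) (by norm_num)
    (by norm_num)
  constructor <;> rcases abs_cases (hypX w) with ⟨a, -⟩ | ⟨a, -⟩ <;>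
    rcases abs_cases (hypY w) with ⟨b, -⟩ | ⟨b, -⟩ <;> rw [a, b] <;> linarith

theorem hypT_le_two {w : ℍ} (hw : ∀ γ : orderUnits, hypT w ≤ hypT (γ • w)) : hypT w ≤ 2 := by
  obtain ⟨h1, h2⟩ := octagon hw
  have h3 := Real.mul_self_sqrt (show (0 : ℝ) ≤ 3 by norm_num)
  have hT := hypT_pos w
  have e := hyp_eq w
  rw [← sq_abs (hypX w), ← sq_abs (hypY w)] at e
  set r := Real.sqrt 3 * hypT w with hr
  set u := |hypX w|
  set v := |hypY w|
  have hu : 0 ≤ u := abs_nonneg _
  have hv : 0 ≤ v := abs_nonneg _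
  have hb : 4 * (u ^ 2 + v ^ 2) ≤ r ^ 2 := by
    rcases le_total v u with h | h <;> nlinarith [mul_nonneg hu hv]
  have hr2 : r ^ 2 = 3 * hypT w ^ 2 := by rw [hr, mul_pow, sq, h3]
  nlinarith

/-- **Every orbit meets the box.** -/
theorem exists_mem_box (z : ℍ) : ∃ w ∈ MulAction.orbit orderUnits z, w ∈ box := by
  obtain ⟨w, hw, hmin⟩ := exists_nearest z
  exact ⟨w, hw, hypT_le_two hmin⟩

theorem measurableSet_box : MeasurableSet box :=
  (isCompact_hypT_le 2).isClosed.measurableSet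

theorem volume_box_le : volume box ≤ ENNReal.ofReal 12 := by
  set s := Real.sqrt 3
  have hs : s ^ 2 = 3 := Real.sq_sqrt (by norm_num)
  have hs0 : 0 ≤ s := Real.sqrt_nonneg 3
  have hs2 : s < 2 := by nlinarith
  set S : Set ℂ := Icc (-s) s ×ℂ Icc (2 - s) (2 + s)
  have hsub : ((↑) : ℍ → ℂ) '' box ⊆ S := by
    rintro _ ⟨z, hz, rfl⟩
    have hy := z.im_pos
    have h : z.re ^ 2 + z.im ^ 2 + 1 ≤ 2 * (2 * z.im) :=
      (div_le_iff₀ (by positivity)).1 (show hypT z ≤ 2 from hz)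
    refine ⟨?_, ?_⟩
    · show z.re ∈ Icc (-s) s
      exact abs_le.1 (abs_le_of_sq_le_sq (by nlinarith [sq_nonneg (z.im - 2)]) hs0)
    · show z.im ∈ Icc (2 - s) (2 + s)
      have := abs_le.1 (abs_le_of_sq_le_sq (a := z.im - 2) (by nlinarith [sq_nonneg z.re]) hs0)
      exact ⟨by linarith [this.1], by linarith [this.2]⟩
  rw [UpperHalfPlane.volume_eq_lintegral]
  refine (lintegral_mono_set hsub).trans ?_
  have hpos : ∀ w ∈ S, 0 < w.im := fun w hw => lt_of_lt_of_le (by linarith) hw.2.1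
  have hcont : ContinuousOn (fun w : ℂ => (w.im ^ 2)⁻¹) S :=
    (Complex.continuous_im.continuousOn.pow 2).inv₀ fun w hw => pow_ne_zero _ (hpos w hw).ne'
  have hS : IsCompact S := isCompact_Icc.reProdIm isCompact_Icc
  calc ∫⁻ w in S, ((((1 : NNReal) / ‖w.im‖₊) ^ 2 : NNReal) : ℝ≥0∞)
      = ∫⁻ w in S, ENNReal.ofReal ((w.im ^ 2)⁻¹) := by
        refine setLIntegral_congr_fun hS.measurableSet fun w hw => ?_
        rw [← ENNReal.ofReal_coe_nnreal]
        congr 1
        simp [abs_of_pos (hpos w hw)]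
    _ = ENNReal.ofReal (∫ w in S, (w.im ^ 2)⁻¹) := by
        rw [ofReal_integral_eq_lintegral_ofReal (hcont.integrableOn_compact hS)
          ((ae_restrict_iff' hS.measurableSet).2 (.of_forall fun w hw => by positivity))]
    _ ≤ ENNReal.ofReal 12 := by
        refine ENNReal.ofReal_le_ofReal (le_of_eq ?_)
        have hpre : S = Complex.measurableEquivRealProd ⁻¹'
            (Icc (-s) s ×ˢ Icc (2 - s) (2 + s)) := rfl
        rw [hpre]
        have e := Complex.volume_preserving_equiv_real_prod.setIntegral_preimage_emb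
          Complex.measurableEquivRealProd.measurableEmbedding
          (fun p : ℝ × ℝ => (1 : ℝ) * (p.2 ^ 2)⁻¹) (Icc (-s) s ×ˢ Icc (2 - s) (2 + s))
        rw [show ∫ w in Complex.measurableEquivRealProd ⁻¹' (Icc (-s) s ×ˢ Icc (2 - s) (2 + s)),
            (w.im ^ 2)⁻¹ = ∫ w in Complex.measurableEquivRealProd ⁻¹'
              (Icc (-s) s ×ˢ Icc (2 - s) (2 + s)),
              (1 : ℝ) * ((Complex.measurableEquivRealProd w).2 ^ 2)⁻¹ from by
          simp [Complex.measurableEquivRealProd_apply], e]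
        rw [MeasureTheory.Measure.volume_eq_prod, setIntegral_prod_mul (fun _ => (1 : ℝ))
          fun y => (y ^ 2)⁻¹, setIntegral_const, measureReal_def, Real.volume_Icc,
          integral_Icc_eq_integral_Ioc, ← intervalIntegral.integral_of_le (by linarith)]
        have hint : ∫ y in (2 - s)..(2 + s), (y ^ 2)⁻¹ = (2 - s)⁻¹ - (2 + s)⁻¹ := by
          have h := integral_zpow (a := 2 - s) (b := 2 + s) (n := -2) (.inr ⟨by norm_num, by
            rw [uIcc_of_le (by linarith)]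
            exact fun h => by linarith [h.1]⟩)
          norm_num [zpow_neg] at h
          rw [h]
          ring
        rw [hint, ENNReal.toReal_ofReal (by linarith)]
        have h1 : 2 - s ≠ 0 := by linarith
        have h2 : 2 + s ≠ 0 := by linarith
        rw [smul_eq_mul, mul_one]
        field_simp
        nlinarith

theorem neg_one_mem : (-1 : SL(2, ℝ)) ∈ orderUnits := by
  simp [mem_orderUnits, one_mem]

theorem trivCard_orderUnits : trivCard orderUnits = 2 :=
  CocompactHurwitz.trivCard_eq.1 neg_one_mem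

/-- **The area is at most `12`.** -/
theorem area_le : area orderUnits ≤ 12 := by
  obtain ⟨ψ, G, h⟩ := exists_partition orderUnits
  obtain ⟨D, hD⟩ := exists_fundSet orderUnits
  haveI := countable_group orderUnits
  set F : ℍ → ℝ≥0∞ := fun z => ∑' γ : orderUnits, box.indicator (1 : ℍ → ℝ≥0∞) (γ • z)
  have hFm : Measurable F := Measurable.tsum fun γ =>
    (measurable_one.indicator measurableSet_box).comp (continuous_const_smul γ).measurable
  have hFinv : ∀ (δ : orderUnits) (z : ℍ), F (δ • z) = F z := fun δ z => by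
    simp only [F, ← mul_smul]
    exact (Equiv.mulRight δ).tsum_eq fun γ => box.indicator (1 : ℍ → ℝ≥0∞) (γ • z)
  have hF2 : ∀ z, 2 ≤ F z := fun z => by
    classical
    obtain ⟨w, ⟨γ, rfl⟩, hw⟩ := exists_mem_box z
    set ν : orderUnits := ⟨-1, neg_one_mem⟩
    have hν : ν • (γ • z) = γ • z := by
      rw [Subgroup.smul_def]
      exact CocompactHurwitz.eq_one_or_neg_one.2 (.inr rfl) _
    have hne : γ ∉ ({ν * γ} : Finset orderUnits) := fun h => CocompactHurwitz.one_ne_neg_one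
      (congrArg Subtype.val (mul_right_cancel ((one_mul γ).trans (Finset.mem_singleton.1 h))))
    refine le_trans (le_of_eq ?_) (ENNReal.sum_le_tsum (insert γ {ν * γ}))
    rw [Finset.sum_insert hne, Finset.sum_singleton, mul_smul, hν, indicator_of_mem hw]
    exact one_add_one_eq_two.symm
  have h1 : ∫⁻ z in D, F z = 2 * ∫⁻ z : ℍ, ENNReal.ofReal (ψ z) * F z := by
    rw [lintegral_fundSet h hD hFm hFinv, trivCard_orderUnits]
    norm_num
  have h2 : ∫⁻ z : ℍ, ENNReal.ofReal (ψ z) * F z = volume box := by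
    set g : ℍ → ℝ≥0∞ := fun z => ENNReal.ofReal (ψ z)
    have hg : Measurable g := ENNReal.measurable_ofReal.comp h.continuous_restrict.measurable
    have hone : ∀ z : ℍ, ∑' γ : orderUnits, g (γ • z) = 1 := fun z => by
      rw [← ENNReal.ofReal_tsum_of_nonneg (fun γ => h.nonneg _) (h.hasSum z).summable,
        (h.hasSum z).tsum_eq, ENNReal.ofReal_one]
    simp only [F, ← ENNReal.tsum_mul_left]
    rw [lintegral_tsum (f := fun (γ : orderUnits) (z : ℍ) =>
      ENNReal.ofReal (ψ z) * box.indicator (1 : ℍ → ℝ≥0∞) (γ • z))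
      fun γ => (hg.mul ((measurable_one.indicator measurableSet_box).comp
      (continuous_const_smul γ).measurable)).aemeasurable]
    rw [tsum_congr (g := fun γ : orderUnits => ∫⁻ z, g ((γ⁻¹ : orderUnits) • z) *
      box.indicator (1 : ℍ → ℝ≥0∞) z) fun γ => by
        rw [← (measurePreserving_sl ((γ⁻¹ : orderUnits) : SL(2, ℝ))).lintegral_comp_emb
          (measurableEmbedding_sl _)]
        simp only [← Subgroup.smul_def, smul_inv_smul]
        rfl]
    rw [← lintegral_tsum (f := fun (γ : orderUnits) (z : ℍ) => g ((γ⁻¹ : orderUnits) • z) *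
      box.indicator (1 : ℍ → ℝ≥0∞) z) fun γ => ((hg.comp (continuous_const_smul γ⁻¹).measurable).mul
      (measurable_one.indicator measurableSet_box)).aemeasurable]
    rw [← lintegral_indicator_one measurableSet_box]
    refine lintegral_congr fun z => ?_
    rw [ENNReal.tsum_mul_right, show (∑' i : orderUnits, g (i⁻¹ • z)) = 1 from
      ((Equiv.inv orderUnits).tsum_eq fun γ => g (γ • z)).trans (hone z), one_mul]
  have h3 : 2 * volume D ≤ 2 * ENNReal.ofReal 12 :=
    calc 2 * volume D = ∫⁻ _ in D, 2 := (setLIntegral_const D 2).symm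
      _ ≤ ∫⁻ z in D, F z := lintegral_mono fun z => hF2 z
      _ ≤ _ := by
          rw [h1, h2]
          exact mul_le_mul_right volume_box_le 2
  rw [volume_eq_area orderUnits hD] at h3
  exact (ENNReal.ofReal_le_ofReal_iff (by norm_num)).1
    ((ENNReal.mul_le_mul_iff_right two_ne_zero ENNReal.ofNat_ne_top).1 h3)

end FA.QuaternionCurve

end
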