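import Fermat.Agent.QuaternionCurve.Domain
import Fermat.Agent.CocompactGaussBonnet.Formula
import Fermat.Agent.CocompactDegree.Applications

/-!
# The elliptic points of the curve of discriminant `6`

An elliptic element fixing a point with `h₀ ≤ 2` has doubled coordinates among finitely many, and
up to two units the fixed points are `i`, `(2 + √3) i` of order `2` and `u (± 1 + i)`,
`u = (√3 + 1) / 2`, of order `3`; these four are inequivalent.
-/

set_option autoImplicit false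
set_option linter.unusedSectionVars false
set_option linter.style.haveILetI false
set_option linter.unnecessarySeqFocus false

noncomputable section

open Set Filter Topology
open UpperHalfPlane hiding I
open scoped MatrixGroups Real
open FA.Horocycle FA.QuaternionHecke FA.CocompactForms FA.CocompactDegree FA.CocompactGaussBonnet

namespace FA.QuaternionCurve

/-- The second elliptic point of order `2`. -/
def ptTwo : ℍ := ⟨((2 + Real.sqrt 3 : ℝ) : ℂ) * Complex.I, by simp; positivity⟩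

/-- A point equivalent to it. -/
def ptSide : ℍ := ⟨((Real.sqrt 3 / 2 : ℝ) : ℂ) + ((1 / 2 : ℝ) : ℂ) * Complex.I, by simp⟩

/-- The elliptic points of order `3`, for `σ = ± 1`. -/
def ptThree (σ : ℝ) : ℍ :=
  ⟨((σ * ((Real.sqrt 3 + 1) / 2) : ℝ) : ℂ) + (((Real.sqrt 3 + 1) / 2 : ℝ) : ℂ) * Complex.I,
    by simp; positivity⟩

theorem sqrt_three_sq : Real.sqrt 3 ^ 2 = 3 := Real.sq_sqrt (by norm_num)

theorem hyp_I : hypT UpperHalfPlane.I = 1 ∧ hypX UpperHalfPlane.I = 0 ∧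
    hypY UpperHalfPlane.I = 0 := by
  simp [hypT, hypX, hypY]

theorem hyp_ptTwo : hypT ptTwo = 2 ∧ hypX ptTwo = Real.sqrt 3 ∧ hypY ptTwo = 0 := by
  have h := sqrt_three_sq
  have h0 : (2 + Real.sqrt 3) ≠ 0 := by positivity
  refine ⟨?_, ?_, ?_⟩ <;> simp [hypT, hypX, hypY, ptTwo, UpperHalfPlane.re, UpperHalfPlane.im] <;>
    field_simp <;> nlinarith

theorem hyp_ptSide : hypT ptSide = 2 ∧ hypX ptSide = 0 ∧ hypY ptSide = Real.sqrt 3 := by
  have h := sqrt_three_sq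
  refine ⟨?_, ?_, ?_⟩ <;>
    simp [hypT, hypX, hypY, ptSide, UpperHalfPlane.re, UpperHalfPlane.im] <;> nlinarith

theorem hyp_ptThree {σ : ℝ} (hσ : σ ^ 2 = 1) :
    hypT (ptThree σ) = Real.sqrt 3 ∧ hypX (ptThree σ) = 1 ∧ hypY (ptThree σ) = σ := by
  have h := sqrt_three_sq
  have h0 : (Real.sqrt 3 + 1) ≠ 0 := by positivity
  refine ⟨?_, ?_, ?_⟩ <;>
    simp [hypT, hypX, hypY, ptThree, UpperHalfPlane.re, UpperHalfPlane.im, mul_pow, hσ] <;>
    field_simp <;> nlinarith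

theorem fixed_iff {γ : SL(2, ℝ)} (hγ : γ ∈ orderUnits) (z : ℍ) :
    γ • z = z ↔ ∃ T : ℝ, (dblB γ : ℝ) = T * hypT z ∧
      (dblD γ : ℝ) * Real.sqrt 3 = T * hypX z ∧ (dblC γ : ℝ) * Real.sqrt 3 = -(T * hypY z) := by
  have hy := z.im_pos
  have hg := coe_eq_realQuat hγ
  have e : γ • z = z ↔ γ 0 0 - γ 1 1 = 2 * γ 1 0 * z.re ∧
      γ 0 1 = -(γ 1 0) * (z.re ^ 2 + z.im ^ 2) := by
    rw [UpperHalfPlane.ext_iff, coe_smul_eq_mob, mob, div_eq_iff (jac_ne_zero γ z.im_ne_zero), jac,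
      Complex.ext_iff]
    simp
    constructor
    · rintro ⟨hre, him⟩
      have h1 : γ 0 0 - γ 1 1 = 2 * γ 1 0 * z.re :=
        mul_right_cancel₀ hy.ne' (by linear_combination him)
      exact ⟨h1, by linear_combination hre - z.re * h1⟩
    · rintro ⟨h1, h2⟩
      exact ⟨by linear_combination h2 + z.re * h1, by linear_combination z.im * h1⟩
  rw [e, hg]
  simp only [realQuat, hypT, hypX, hypY]
  simp
  constructor
  · rintro ⟨h1, h2⟩
    refine ⟨-2 * (-(dblB γ : ℝ) / 2 + dblD γ / 2 * Real.sqrt 3) * z.im, ?_, ?_, ?_⟩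
    · field_simp
      linear_combination 2 * h2
    · field_simp
      linear_combination 2 * h2
    · field_simp
      linear_combination h1
  · rintro ⟨T, hB, hD, hC⟩
    constructor
    · linear_combination hC - z.re * hD + z.re * hB
    · linear_combination (1 + z.re ^ 2 + z.im ^ 2) / 2 * hD +
        (1 - z.re ^ 2 - z.im ^ 2) / 2 * hB

theorem exists_unit {A B C D : ℤ} (hA : (2 : ℤ) ∣ A - D) (hB : (2 : ℤ) ∣ B - D)
    (hC : (2 : ℤ) ∣ C - D) (hn : A ^ 2 + B ^ 2 - 3 * C ^ 2 - 3 * D ^ 2 = 4) :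
    ∃ γ ∈ orderUnits, dblA γ = A ∧ dblB γ = B ∧ dblC γ = C ∧ dblD γ = D := by
  obtain ⟨a, ha⟩ := hA
  obtain ⟨b, hb⟩ := hB
  obtain ⟨c, hc⟩ := hC
  obtain rfl : A = 2 * a + D := by linarith
  obtain rfl : B = 2 * b + D := by linarith
  obtain rfl : C = 2 * c + D := by linarith
  have h : hurNorm (a, b, c, D) = 1 := by
    simp only [hurNorm]
    linarith
  refine ⟨_, (unitMk (a, b, c, D) h).2, ?_⟩
  have e : Function.invFun hurMat
      ((unitMk (a, b, c, D) h : SL(2, ℝ)) : Matrix (Fin 2) (Fin 2) ℝ) = (a, b, c, D) :=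
    Function.leftInverse_invFun hurMat_injective _
  simp [dblA, dblB, dblC, dblD, e]

theorem eq_one_of_dbl {γ : SL(2, ℝ)} (hγ : γ ∈ orderUnits) (hB : dblB γ = 0) (hC : dblC γ = 0)
    (hD : dblD γ = 0) : γ = 1 ∨ γ = -1 := by
  have hn := dbl_norm hγ
  rw [hB, hC, hD] at hn
  have hA : dblA γ = 2 ∨ dblA γ = -2 := sq_eq_sq_iff_eq_or_eq_neg.1 (by linarith)
  refine CocompactHurwitz.eq_one_or_neg_one.1 fun z => ?_
  rw [fixed_iff hγ]
  exact ⟨0, by simp [hB], by simp [hD], by simp [hC]⟩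

/-- A fixed point in the box is one of the nine. -/
theorem fixed_in_box {γ : SL(2, ℝ)} (hγ : γ ∈ orderUnits) {z : ℍ} (hz : γ • z = z)
    (h1 : γ ≠ 1) (h1' : γ ≠ -1) (hbox : hypT z ≤ 2) :
    (hypT z = 1 ∧ hypX z = 0 ∧ hypY z = 0) ∨
      (hypT z = 2 ∧ (hypX z = Real.sqrt 3 ∨ hypX z = -Real.sqrt 3) ∧ hypY z = 0) ∨
      (hypT z = 2 ∧ hypX z = 0 ∧ (hypY z = Real.sqrt 3 ∨ hypY z = -Real.sqrt 3)) ∨
      (hypT z = Real.sqrt 3 ∧ (hypX z = 1 ∨ hypX z = -1) ∧ (hypY z = 1 ∨ hypY z = -1)) := by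
  obtain ⟨T, hB, hD, hC⟩ := (fixed_iff hγ z).1 hz
  have hn := dbl_norm hγ
  obtain ⟨pA, pB, pC⟩ := dbl_parity γ
  have hs := sqrt_three_sq
  have hh := hyp_eq z
  have hT : T ≠ 0 := fun h0 => by
    rw [h0, zero_mul] at hB hD
    rw [h0, zero_mul, neg_zero] at hC
    have hs0 : Real.sqrt 3 ≠ 0 := by positivity
    rcases eq_one_of_dbl hγ (by exact_mod_cast hB)
      (by exact_mod_cast (mul_eq_zero.1 hC).resolve_right hs0)
      (by exact_mod_cast (mul_eq_zero.1 hD).resolve_right hs0) with h | h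
    · exact h1 h
    · exact h1' h
  have hnR : (dblA γ : ℝ) ^ 2 + dblB γ ^ 2 - 3 * dblC γ ^ 2 - 3 * dblD γ ^ 2 = 4 := by
    exact_mod_cast hn
  have hT2 : (dblA γ : ℝ) ^ 2 + T ^ 2 = 4 := by
    linear_combination hnR - ((dblB γ : ℝ) + T * hypT z) * hB +
      ((dblD γ : ℝ) * Real.sqrt 3 + T * hypX z) * hD +
      ((dblC γ : ℝ) * Real.sqrt 3 - T * hypY z) * hC -
      T ^ 2 * hh - ((dblD γ : ℝ) ^ 2 + (dblC γ : ℝ) ^ 2) * hs
  have hT0 : 0 < T ^ 2 := lt_of_le_of_ne (sq_nonneg T) (Ne.symm (pow_ne_zero 2 hT))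
  have hA : dblA γ ^ 2 < 4 := by
    exact_mod_cast (by linarith : (dblA γ : ℝ) ^ 2 < 4)
  have hBle : (dblB γ : ℝ) ^ 2 ≤ 4 * T ^ 2 := by
    rw [hB, mul_pow, mul_comm (4 : ℝ)]
    exact mul_le_mul_of_nonneg_left (by nlinarith [hypT_pos z]) (sq_nonneg T)
  have hBge : T ^ 2 ≤ (dblB γ : ℝ) ^ 2 := by
    rw [hB, mul_pow]
    exact le_mul_of_one_le_right (sq_nonneg T) (one_le_pow₀ (hypT_nonneg_one z))
  have hAB1 : dblB γ ^ 2 ≤ 4 * (4 - dblA γ ^ 2) := by
    exact_mod_cast (by linarith : (dblB γ : ℝ) ^ 2 ≤ 4 * (4 - (dblA γ : ℝ) ^ 2))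
  have hAB2 : 4 - dblA γ ^ 2 ≤ dblB γ ^ 2 := by
    exact_mod_cast (by linarith : 4 - (dblA γ : ℝ) ^ 2 ≤ (dblB γ : ℝ) ^ 2)
  have hDX : hypX z = dblD γ * Real.sqrt 3 / T := by rw [eq_div_iff hT, hD]; ring
  have hCY : hypY z = -(dblC γ * Real.sqrt 3) / T := by rw [eq_div_iff hT, hC]; ring
  have hBT : hypT z = dblB γ / T := by rw [eq_div_iff hT, hB]; ring
  have hpos := hypT_pos z
  have hA' : dblA γ = -1 ∨ dblA γ = 0 ∨ dblA γ = 1 := by
    have l1 : -2 < dblA γ := by nlinarith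
    have l2 : dblA γ < 2 := by nlinarith
    omega
  have hB1 : -4 ≤ dblB γ := by nlinarith
  have hB2 : dblB γ ≤ 4 := by nlinarith
  have hC1 : -2 ≤ dblC γ := by nlinarith [sq_nonneg (dblD γ)]
  have hC2 : dblC γ ≤ 2 := by nlinarith [sq_nonneg (dblD γ)]
  have hD1 : -2 ≤ dblD γ := by nlinarith [sq_nonneg (dblC γ)]
  have hD2 : dblD γ ≤ 2 := by nlinarith [sq_nonneg (dblC γ)]
  rcases hA' with hA' | hA' | hA' <;> rw [hA'] at hn hT2 pA hAB1 hAB2
  · have h3 : T ^ 2 = Real.sqrt 3 ^ 2 := by rw [hs]; push_cast at hT2; linarith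
    interval_cases hb : dblB γ <;> interval_cases hc : dblC γ <;> interval_cases hd : dblD γ
    all_goals try omega
    all_goals
      refine .inr (.inr (.inr ?_))
      rw [hDX, hCY, hBT]
      rw [hBT] at hpos
      rcases sq_eq_sq_iff_eq_or_eq_neg.1 h3 with rfl | rfl <;> push_cast at hpos ⊢ <;>
        norm_num [div_neg, neg_div] at hpos <;> norm_num [div_neg, neg_div] <;>
          linarith [Real.sqrt_nonneg (3 : ℝ)]
  · have h3 : T ^ 2 = 2 ^ 2 := by push_cast at hT2; linarith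
    interval_cases hb : dblB γ <;> interval_cases hc : dblC γ <;> interval_cases hd : dblD γ
    all_goals try omega
    all_goals
      rw [hDX, hCY, hBT]
      rw [hBT] at hpos
      rcases sq_eq_sq_iff_eq_or_eq_neg.1 h3 with rfl | rfl <;> push_cast at hpos ⊢ <;>
        norm_num [div_neg, neg_div] at hpos <;> norm_num [div_neg, neg_div]
  · have h3 : T ^ 2 = Real.sqrt 3 ^ 2 := by rw [hs]; push_cast at hT2; linarith
    interval_cases hb : dblB γ <;> interval_cases hc : dblC γ <;> interval_cases hd : dblD γ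
    all_goals try omega
    all_goals
      refine .inr (.inr (.inr ?_))
      rw [hDX, hCY, hBT]
      rw [hBT] at hpos
      rcases sq_eq_sq_iff_eq_or_eq_neg.1 h3 with rfl | rfl <;> push_cast at hpos ⊢ <;>
        norm_num [div_neg, neg_div] at hpos <;> norm_num [div_neg, neg_div] <;>
          linarith [Real.sqrt_nonneg (3 : ℝ)]

/-- The half turn about `i`. -/
def halfTurn : orderUnits := unitMk (0, 1, 0, 0) (by norm_num [hurNorm])

theorem hyp_halfTurn (z : ℍ) : hypT (halfTurn • z) = hypT z ∧ hypX (halfTurn • z) = -hypX z ∧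
    hypY (halfTurn • z) = -hypY z := by
  have hy := z.im_pos
  have hc : ((halfTurn • z : ℍ) : ℂ) = -(1 : ℂ) / z := by
    rw [Subgroup.smul_def, coe_smul_eq_mob, mob, jac, halfTurn, coe_unitMk]
    simp [realQuat]
    rw [neg_div, one_div]
  have hn : z.re ^ 2 + z.im ^ 2 ≠ 0 := by positivity
  have hre : (halfTurn • z).re = -z.re / (z.re ^ 2 + z.im ^ 2) := by
    rw [← UpperHalfPlane.coe_re, hc]
    simp [Complex.div_re, Complex.normSq_apply]
    ring
  have him : (halfTurn • z).im = z.im / (z.re ^ 2 + z.im ^ 2) := by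
    rw [← UpperHalfPlane.coe_im, hc]
    simp [Complex.div_im, Complex.normSq_apply]
    ring
  simp only [hypT, hypX, hypY, hre, him]
  refine ⟨?_, ?_, ?_⟩ <;> field_simp <;> ring

theorem turn_ptTwo : unitMk (1, 0, -1, 1) (by norm_num [hurNorm]) • ptTwo = ptSide := by
  have hs := sqrt_three_sq
  rw [Subgroup.smul_def, UpperHalfPlane.ext_iff, coe_smul_eq_mob, mob,
    div_eq_iff (jac_ne_zero _ ptTwo.im_ne_zero), jac, coe_unitMk]
  have hs' : Real.sqrt 3 ^ 3 = 3 * Real.sqrt 3 := by rw [pow_succ, hs]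
  simp [realQuat, ptTwo, ptSide, Complex.ext_iff]
  constructor <;> ring_nf <;> rw [hs] <;> (try rw [hs']) <;> ring

/-- The four orbits. -/
def ellipticPts : Fin 4 → ℍ := ![UpperHalfPlane.I, ptTwo, ptThree 1, ptThree (-1)]

theorem ellipticPts_apply : ellipticPts 0 = UpperHalfPlane.I ∧ ellipticPts 1 = ptTwo ∧
    ellipticPts 2 = ptThree 1 ∧ ellipticPts 3 = ptThree (-1) :=
  ⟨rfl, rfl, rfl, rfl⟩

theorem exists_pt {z : ℍ} (hz : z ∈ fixSet orderUnits) :
    ∃ i, z ∈ MulAction.orbit orderUnits (ellipticPts i) := by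
  obtain ⟨w, hwz, hw⟩ := exists_mem_box z
  suffices h : ∃ i, w ∈ MulAction.orbit orderUnits (ellipticPts i) by
    obtain ⟨i, hi⟩ := h
    exact ⟨i, by rw [← MulAction.orbit_eq_iff.2 hi, MulAction.orbit_eq_iff.2 hwz]
                 exact MulAction.mem_orbit_self z⟩
  obtain ⟨δ, rfl⟩ := hwz
  obtain ⟨γ, hγ, hγt⟩ := smul_mem_fixSet orderUnits hz δ
  have hne : (γ : SL(2, ℝ)) ≠ 1 ∧ (γ : SL(2, ℝ)) ≠ -1 :=
    not_or.1 fun h => hγt (CocompactHurwitz.mem_triv_iff.2 h)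
  have key := fixed_in_box γ.2 hγ hne.1 hne.2 hw
  obtain ⟨t1, t2, t3⟩ := hyp_halfTurn (δ • z)
  have back : ∀ {u : ℍ}, halfTurn • (δ • z) = u → δ • z ∈ MulAction.orbit orderUnits u :=
    fun h => ⟨halfTurn⁻¹, by rw [← h]; exact inv_smul_smul _ _⟩
  have hside : ptSide ∈ MulAction.orbit orderUnits ptTwo := ⟨_, turn_ptTwo⟩
  have hI := hyp_I
  have h2 := hyp_ptTwo
  have hS := hyp_ptSide
  have hp := hyp_ptThree (σ := 1) (by norm_num)
  have hm := hyp_ptThree (σ := -1) (by norm_num)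
  obtain ⟨e0, e1, e2, e3⟩ := ellipticPts_apply
  rcases key with ⟨a, b, c⟩ | ⟨a, b | b, c⟩ | ⟨a, b, c | c⟩ | ⟨a, b | b, c | c⟩
  · exact ⟨0, ⟨1, by rw [e0]; simpa using
      (eq_of_hyp (a.trans hI.1.symm) (b.trans hI.2.1.symm) (c.trans hI.2.2.symm)).symm⟩⟩
  · refine ⟨1, ⟨1, ?_⟩⟩
    rw [e1]
    simpa using (eq_of_hyp (a.trans h2.1.symm) (b.trans h2.2.1.symm) (c.trans h2.2.2.symm)).symm
  · refine ⟨1, ?_⟩
    rw [e1]
    exact back (eq_of_hyp (by rw [t1, a, h2.1]) (by rw [t2, b, neg_neg, h2.2.1])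
      (by rw [t3, c, neg_zero, h2.2.2]))
  · refine ⟨1, ?_⟩
    rw [e1]
    show δ • z ∈ _
    rw [eq_of_hyp (a.trans hS.1.symm) (b.trans hS.2.1.symm) (c.trans hS.2.2.symm)]
    exact hside
  · refine ⟨1, ?_⟩
    rw [e1, ← MulAction.orbit_eq_iff.2 hside]
    exact back (eq_of_hyp (by rw [t1, a, hS.1]) (by rw [t2, b, neg_zero, hS.2.1])
      (by rw [t3, c, neg_neg, hS.2.2]))
  · refine ⟨2, ⟨1, ?_⟩⟩
    rw [e2]
    simpa using (eq_of_hyp (a.trans hp.1.symm) (b.trans hp.2.1.symm) (c.trans hp.2.2.symm)).symm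
  · refine ⟨3, ⟨1, ?_⟩⟩
    rw [e3]
    simpa using (eq_of_hyp (a.trans hm.1.symm) (b.trans hm.2.1.symm) (c.trans hm.2.2.symm)).symm
  · refine ⟨3, ?_⟩
    rw [e3]
    exact back (eq_of_hyp (by rw [t1, a, hm.1]) (by rw [t2, b, neg_neg, hm.2.1])
      (by rw [t3, c, hm.2.2]))
  · refine ⟨2, ?_⟩
    rw [e2]
    exact back (eq_of_hyp (by rw [t1, a, hp.1]) (by rw [t2, b, neg_neg, hp.2.1])
      (by rw [t3, c, neg_neg, hp.2.2]))

theorem card_stab_eq {z : ℍ} {S : Finset (ℤ × ℤ)} (φ : SL(2, ℝ) → ℤ × ℤ)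
    (hmap : ∀ γ ∈ orderUnits, γ • z = z → φ γ ∈ S)
    (hinj : ∀ γ ∈ orderUnits, ∀ δ ∈ orderUnits, γ • z = z → δ • z = z → φ γ = φ δ → γ = δ)
    (hsurj : ∀ x ∈ S, ∃ γ ∈ orderUnits, γ • z = z ∧ φ γ = x) :
    Nat.card (MulAction.stabilizer orderUnits z) = S.card := by
  rw [← Nat.card_eq_finsetCard S]
  refine Nat.card_eq_of_bijective (fun γ => ⟨φ γ.1.1, hmap _ γ.1.2 γ.2⟩) ⟨fun γ δ h => ?_, ?_⟩
  · exact Subtype.ext (Subtype.ext (hinj _ γ.1.2 _ δ.1.2 γ.2 δ.2 (congrArg Subtype.val h)))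
  · rintro ⟨x, hx⟩
    obtain ⟨γ, hγ, hz, e⟩ := hsurj x hx
    exact ⟨⟨⟨γ, hγ⟩, hz⟩, Subtype.ext e⟩

theorem card_stab_I : Nat.card (MulAction.stabilizer orderUnits UpperHalfPlane.I) = 4 := by
  obtain ⟨h0, hX, hY⟩ := hyp_I
  have hs0 : Real.sqrt 3 ≠ 0 := by positivity
  have key : ∀ γ ∈ orderUnits, γ • UpperHalfPlane.I = UpperHalfPlane.I →
      dblC γ = 0 ∧ dblD γ = 0 := fun γ hγ hfix => by
    obtain ⟨T, -, hD, hC⟩ := (fixed_iff hγ _).1 hfix
    rw [hX, mul_zero] at hD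
    rw [hY, mul_zero, neg_zero] at hC
    exact ⟨by exact_mod_cast (mul_eq_zero.1 hC).resolve_right hs0,
      by exact_mod_cast (mul_eq_zero.1 hD).resolve_right hs0⟩
  rw [card_stab_eq (S := {(2, 0), (-2, 0), (0, 2), (0, -2)}) fun γ => (dblA γ, dblB γ)]
  · rfl
  · intro γ hγ hfix
    obtain ⟨hC, hD⟩ := key γ hγ hfix
    have hn := dbl_norm hγ
    obtain ⟨pA, pB, -⟩ := dbl_parity γ
    rw [hC, hD] at hn
    rw [hD, sub_zero] at pA pB
    have a1 : -2 ≤ dblA γ := by nlinarith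
    have a2 : dblA γ ≤ 2 := by nlinarith
    have b1 : -2 ≤ dblB γ := by nlinarith
    have b2 : dblB γ ≤ 2 := by nlinarith
    interval_cases ha : dblA γ <;> interval_cases hb : dblB γ <;> first | omega | decide
  · intro γ hγ δ hδ hz hz' e
    obtain ⟨hC, hD⟩ := key γ hγ hz
    obtain ⟨hC', hD'⟩ := key δ hδ hz'
    simp only [Prod.mk.injEq] at e
    exact dbl_injective hγ hδ e.1 e.2 (hC.trans hC'.symm) (hD.trans hD'.symm)
  · rintro ⟨x, y⟩ hx
    obtain ⟨γ, hγ, eA, eB, eC, eD⟩ := exists_unit (A := x) (B := y) (C := 0) (D := 0)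
      (by fin_cases hx <;> norm_num) (by fin_cases hx <;> norm_num) (by norm_num)
      (by fin_cases hx <;> norm_num)
    refine ⟨γ, hγ, (fixed_iff hγ _).2 ⟨y, ?_, ?_, ?_⟩, by rw [eA, eB]⟩ <;>
      simp [eB, eC, eD, h0, hX, hY]

theorem card_stab_ptTwo : Nat.card (MulAction.stabilizer orderUnits ptTwo) = 4 := by
  obtain ⟨h0, hX, hY⟩ := hyp_ptTwo
  have hs0 : Real.sqrt 3 ≠ 0 := by positivity
  have key : ∀ γ ∈ orderUnits, γ • ptTwo = ptTwo →
      dblC γ = 0 ∧ dblB γ = 2 * dblD γ := fun γ hγ hfix => by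
    obtain ⟨T, hB, hD, hC⟩ := (fixed_iff hγ _).1 hfix
    rw [hX] at hD
    rw [hY, mul_zero, neg_zero] at hC
    rw [h0, ← mul_right_cancel₀ hs0 hD, mul_comm] at hB
    exact ⟨by exact_mod_cast (mul_eq_zero.1 hC).resolve_right hs0, by exact_mod_cast hB⟩
  rw [card_stab_eq (S := {(2, 0), (-2, 0), (0, 2), (0, -2)}) fun γ => (dblA γ, dblD γ)]
  · rfl
  · intro γ hγ hfix
    obtain ⟨hC, hB⟩ := key γ hγ hfix
    have hn := dbl_norm hγ
    obtain ⟨pA, -, pC⟩ := dbl_parity γ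
    rw [hC, hB] at hn
    rw [hC, zero_sub, dvd_neg] at pC
    have a1 : -2 ≤ dblA γ := by nlinarith
    have a2 : dblA γ ≤ 2 := by nlinarith
    have b1 : -2 ≤ dblD γ := by nlinarith
    have b2 : dblD γ ≤ 2 := by nlinarith
    interval_cases ha : dblA γ <;> interval_cases hd : dblD γ <;> first | omega | decide
  · intro γ hγ δ hδ hz hz' e
    obtain ⟨hC, hB⟩ := key γ hγ hz
    obtain ⟨hC', hB'⟩ := key δ hδ hz'
    simp only [Prod.mk.injEq] at e
    exact dbl_injective hγ hδ e.1 (by rw [hB, hB', e.2]) (hC.trans hC'.symm) e.2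
  · rintro ⟨x, y⟩ hx
    obtain ⟨γ, hγ, eA, eB, eC, eD⟩ := exists_unit (A := x) (B := 2 * y) (C := 0) (D := y)
      (by fin_cases hx <;> norm_num) (by fin_cases hx <;> norm_num)
      (by fin_cases hx <;> norm_num) (by fin_cases hx <;> norm_num)
    refine ⟨γ, hγ, (fixed_iff hγ _).2 ⟨y, ?_, ?_, ?_⟩, by rw [eA, eD]⟩ <;>
      simp [eB, eC, eD, h0, hX, hY, mul_comm]

theorem card_stab_ptThree {σ : ℤ} (hσ : σ = 1 ∨ σ = -1) :
    Nat.card (MulAction.stabilizer orderUnits (ptThree (σ : ℝ))) = 6 := by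
  have hσ2 : (σ : ℝ) ^ 2 = 1 := by rcases hσ with rfl | rfl <;> norm_num
  obtain ⟨h0, hX, hY⟩ := hyp_ptThree hσ2
  have hs := sqrt_three_sq
  have hs0 : Real.sqrt 3 ≠ 0 := by positivity
  have key : ∀ γ ∈ orderUnits, γ • ptThree (σ : ℝ) = ptThree (σ : ℝ) →
      dblC γ = -σ * dblD γ ∧ dblB γ = 3 * dblD γ := fun γ hγ hfix => by
    obtain ⟨T, hB, hD, hC⟩ := (fixed_iff hγ _).1 hfix
    rw [hX, mul_one] at hD
    rw [hY, ← hD] at hC
    rw [h0, ← hD, mul_assoc, ← sq, hs, mul_comm] at hB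
    refine ⟨?_, by exact_mod_cast hB⟩
    have e : (dblC γ : ℝ) = -(σ : ℝ) * dblD γ := mul_right_cancel₀ hs0 (by linear_combination hC)
    exact_mod_cast e
  rw [card_stab_eq (S := {(2, 0), (-2, 0), (1, 1), (1, -1), (-1, 1), (-1, -1)})
    fun γ => (dblA γ, dblD γ)]
  · rfl
  · intro γ hγ hfix
    obtain ⟨hC, hB⟩ := key γ hγ hfix
    have hn := dbl_norm hγ
    obtain ⟨pA, -, -⟩ := dbl_parity γ
    have hC2 : dblC γ ^ 2 = dblD γ ^ 2 := by
      rw [hC]
      rcases hσ with rfl | rfl <;> ring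
    rw [hB, hC2] at hn
    have a1 : -2 ≤ dblA γ := by nlinarith
    have a2 : dblA γ ≤ 2 := by nlinarith
    have b1 : -1 ≤ dblD γ := by nlinarith
    have b2 : dblD γ ≤ 1 := by nlinarith
    interval_cases ha : dblA γ <;> interval_cases hd : dblD γ <;> first | omega | decide
  · intro γ hγ δ hδ hz hz' e
    obtain ⟨hC, hB⟩ := key γ hγ hz
    obtain ⟨hC', hB'⟩ := key δ hδ hz'
    simp only [Prod.mk.injEq] at e
    exact dbl_injective hγ hδ e.1 (by rw [hB, hB', e.2]) (by rw [hC, hC', e.2]) e.2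
  · rintro ⟨x, y⟩ hx
    obtain ⟨γ, hγ, eA, eB, eC, eD⟩ := exists_unit (A := x) (B := 3 * y) (C := -σ * y) (D := y)
      (by fin_cases hx <;> norm_num) (by fin_cases hx <;> norm_num)
      (by rcases hσ with rfl | rfl <;> fin_cases hx <;> norm_num)
      (by rcases hσ with rfl | rfl <;> fin_cases hx <;> norm_num)
    refine ⟨γ, hγ, (fixed_iff hγ _).2 ⟨y * Real.sqrt 3, ?_, ?_, ?_⟩, by rw [eA, eD]⟩
    · rw [eB, h0, mul_assoc, ← sq, hs]
      push_cast
      ring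
    · rw [eD, hX, mul_one]
    · rw [eC, hY]
      push_cast
      ring

theorem ramIndex_pts (i : Fin 4) :
    ramIndex orderUnits (ellipticPts i) = ![2, 2, 3, 3] i := by
  have h3 : Nat.card (MulAction.stabilizer orderUnits (ptThree 1)) = 6 := by
    simpa using card_stab_ptThree (σ := 1) (.inl rfl)
  have h3' : Nat.card (MulAction.stabilizer orderUnits (ptThree (-1))) = 6 := by
    simpa using card_stab_ptThree (σ := -1) (.inr rfl)
  obtain ⟨e0, e1, e2, e3⟩ := ellipticPts_apply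
  fin_cases i
  · show ramIndex orderUnits (ellipticPts 0) = 2
    rw [e0, ramIndex, card_stab_I, trivCard_orderUnits]
  · show ramIndex orderUnits (ellipticPts 1) = 2
    rw [e1, ramIndex, card_stab_ptTwo, trivCard_orderUnits]
  · show ramIndex orderUnits (ellipticPts 2) = 3
    rw [e2, ramIndex, h3, trivCard_orderUnits]
  · show ramIndex orderUnits (ellipticPts 3) = 3
    rw [e3, ramIndex, h3', trivCard_orderUnits]

theorem ptTwo_not_orbit_I : ptTwo ∉ MulAction.orbit orderUnits UpperHalfPlane.I := by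
  rintro ⟨γ, hγ⟩
  obtain ⟨hT, hX, hY⟩ := hyp_I
  have e := hypT_realQuat (coe_eq_realQuat γ.2) UpperHalfPlane.I
  rw [← Subgroup.smul_def, show γ • UpperHalfPlane.I = ptTwo from hγ, hyp_ptTwo.1, hT, hX, hY] at e
  have hn := dbl_norm γ.2
  have hnR : (dblA γ : ℝ) ^ 2 + (dblB γ : ℝ) ^ 2 - 3 * (dblC γ : ℝ) ^ 2 - 3 * (dblD γ : ℝ) ^ 2 =
      4 := by exact_mod_cast hn
  have e' : 6 * (dblC γ : ℝ) ^ 2 + 6 * (dblD γ : ℝ) ^ 2 = 4 := by linarith
  have e'' : 6 * dblC (γ : SL(2, ℝ)) ^ 2 + 6 * dblD (γ : SL(2, ℝ)) ^ 2 = 4 := by exact_mod_cast e'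
  omega

theorem ptThree_not_orbit :
    ptThree (-1) ∉ MulAction.orbit orderUnits (ptThree 1) := by
  rintro ⟨γ, hγ⟩
  have hs := sqrt_three_sq
  have hg := coe_eq_realQuat γ.2
  have e : γ • ptThree 1 = ptThree (-1) := hγ
  rw [Subgroup.smul_def, UpperHalfPlane.ext_iff, coe_smul_eq_mob, mob,
    div_eq_iff (jac_ne_zero _ (ptThree 1).im_ne_zero), jac, hg] at e
  simp [realQuat, ptThree, Complex.ext_iff] at e
  obtain ⟨hre, him⟩ := e
  have hu : (Real.sqrt 3 + 1) ≠ 0 := by positivity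
  have hC : (dblC γ : ℝ) = 0 := by
    have h : (dblC γ : ℝ) * (Real.sqrt 3 * (Real.sqrt 3 + 1)) = 0 := by linear_combination 2 * him
    exact (mul_eq_zero.1 h).resolve_right (by positivity)
  have hA : (dblA γ : ℝ) - dblB γ + 3 * dblD γ = 0 := by
    have h : ((dblA γ : ℝ) - dblB γ + 3 * dblD γ) * (Real.sqrt 3 + 1) = 0 := by
      linear_combination 2 * hre - ((Real.sqrt 3 * (dblD γ : ℝ)) / 2 + (dblD γ : ℝ) -
        (dblB γ : ℝ) / 2) * hs
    exact (mul_eq_zero.1 h).resolve_right hu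
  have hn := dbl_norm γ.2
  obtain ⟨-, pB, pC⟩ := dbl_parity (γ : SL(2, ℝ))
  have hC' : dblC (γ : SL(2, ℝ)) = 0 := by exact_mod_cast hC
  have hA' : dblA (γ : SL(2, ℝ)) = dblB (γ : SL(2, ℝ)) - 3 * dblD (γ : SL(2, ℝ)) := by
    exact_mod_cast (by linarith : (dblA γ : ℝ) = dblB γ - 3 * dblD γ)
  rw [hC', zero_sub, dvd_neg] at pC
  obtain ⟨d, hd⟩ := pC
  obtain ⟨b, hb⟩ : (2 : ℤ) ∣ dblB (γ : SL(2, ℝ)) := by
    have := dvd_add pB (Dvd.intro d hd.symm)
    rwa [sub_add_cancel] at this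
  rw [hA', hC', hb, hd] at hn
  have h2 : 2 * (b ^ 2 - 3 * b * d + 3 * d ^ 2) = 1 := by linarith
  omega

theorem orbit_pts_injective {i j : Fin 4}
    (h : ellipticPts j ∈ MulAction.orbit orderUnits (ellipticPts i)) : i = j := by
  have hr : ramIndex orderUnits (ellipticPts i) = ramIndex orderUnits (ellipticPts j) := by
    obtain ⟨γ, hγ⟩ := h
    rw [← hγ]
    exact (ramIndex_smul γ _).symm
  rw [ramIndex_pts, ramIndex_pts] at hr
  have hsymm := MulAction.mem_orbit_symm.1 h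
  fin_cases i <;> fin_cases j <;> simp [ellipticPts] at hr h hsymm ⊢
  all_goals first
    | exact ptTwo_not_orbit_I h
    | exact ptTwo_not_orbit_I hsymm
    | exact ptThree_not_orbit h
    | exact ptThree_not_orbit hsymm

end FA.QuaternionCurve

end
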